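import Mathlib
import Fermat.Agent.S48.Cheb.Defs

/-!
# S48 / Cheb / Core : the group theory of the crossing argument
-/

set_option autoImplicit false

namespace Fermat.Agent.S48.Cheb

open Classical

/-- `κ` is injective on `⟨γ, z⟩` when the order of `κ γ` modulo `± 1` is divisible by `|G|`. -/
theorem injOn_closure_pair {𝒢 G A : Type*} [Group 𝒢] [Group G] [Finite G] [CommGroup A]
    [HasDistribNeg A] (res : 𝒢 →* G) (κ : 𝒢 →* A)
    (hinj : Function.Injective fun g => (res g, κ g)) (z : 𝒢) (hz1 : res z = 1) (hz : κ z = -1)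
    (γ : 𝒢) (hγ : ∀ j : ℕ, ((κ γ) ^ j = 1 ∨ (κ γ) ^ j = -1) → Nat.card G ∣ j) :
    Set.InjOn κ (Subgroup.closure {γ, z} : Set 𝒢) := by
  have hQ : ∀ x ∈ Subgroup.closure ({γ, z} : Set 𝒢), ∃ a : ℤ, res x = (res γ) ^ a ∧
      (κ x = (κ γ) ^ a ∨ κ x = -(κ γ) ^ a) := by
    intro x hx
    induction hx using Subgroup.closure_induction with
    | mem x hx =>
      rcases hx with rfl | hx
      · exact ⟨1, (zpow_one _).symm, Or.inl (zpow_one _).symm⟩
      · rw [Set.mem_singleton_iff] at hx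
        subst hx
        exact ⟨0, by rw [hz1, zpow_zero], Or.inr (by rw [hz, zpow_zero])⟩
    | one => exact ⟨0, by rw [map_one, zpow_zero], Or.inl (by rw [map_one, zpow_zero])⟩
    | mul x y _ _ hx hy =>
      obtain ⟨a, ha, ha'⟩ := hx
      obtain ⟨b, hb, hb'⟩ := hy
      refine ⟨a + b, by rw [map_mul, ha, hb, zpow_add], ?_⟩
      rw [map_mul, zpow_add]
      rcases ha' with h | h <;> rcases hb' with h' | h' <;> rw [h, h']
      · exact Or.inl rfl
      · exact Or.inr (mul_neg _ _)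
      · exact Or.inr (neg_mul _ _)
      · exact Or.inl (neg_mul_neg _ _)
    | inv x _ hx =>
      obtain ⟨a, ha, ha'⟩ := hx
      refine ⟨-a, by rw [map_inv, ha, zpow_neg], ?_⟩
      rw [map_inv, zpow_neg]
      rcases ha' with h | h <;> rw [h]
      · exact Or.inl rfl
      · exact Or.inr inv_neg
  intro x hx y hy hxy
  have hw : x * y⁻¹ ∈ Subgroup.closure ({γ, z} : Set 𝒢) :=
    Subgroup.mul_mem _ hx (Subgroup.inv_mem _ hy)
  have hκw : κ (x * y⁻¹) = 1 := by rw [map_mul, map_inv, hxy, mul_inv_cancel]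
  obtain ⟨a, ha, ha'⟩ := hQ _ hw
  rw [hκw] at ha'
  have h1 : (κ γ) ^ a = 1 ∨ (κ γ) ^ a = -1 := by
    rcases ha' with h | h
    · exact Or.inl h.symm
    · exact Or.inr (by rw [h, neg_neg])
  have h2 : (κ γ) ^ a.natAbs = 1 ∨ (κ γ) ^ a.natAbs = -1 := by
    rcases Int.natAbs_eq a with h | h
    · rw [h, zpow_natCast] at h1
      simpa using h1
    · rw [h, zpow_neg, zpow_natCast] at h1
      rcases h1 with h1 | h1
      · exact Or.inl (by simpa using h1)
      · refine Or.inr ?_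
        rw [inv_eq_iff_eq_inv, inv_neg, inv_one] at h1
        simpa using h1
  obtain ⟨c, hc⟩ := Int.natCast_dvd.2 (hγ _ h2)
  have h3 : res (x * y⁻¹) = 1 := by
    rw [ha, hc, zpow_mul, zpow_natCast, pow_card_eq_one', one_zpow]
  have h4 : x * y⁻¹ = 1 := hinj (Prod.ext (by simpa using h3) (by simpa using hκw))
  exact mul_inv_eq_one.1 h4

theorem card_filter_of_bijective {𝒢 G A : Type*} [Fintype 𝒢] [Finite G] [Finite A]
    (f : 𝒢 → G) (κ : 𝒢 → A) (hbij : Function.Bijective fun g => (f g, κ g))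
    (C : Set G) (T : Set A) :
    (Finset.univ.filter fun g : 𝒢 => f g ∈ C ∧ κ g ∈ T).card = Nat.card C * Nat.card T := by
  rw [← Fintype.card_subtype, ← Nat.card_eq_fintype_card, ← Nat.card_prod]
  exact Nat.card_congr (((Equiv.ofBijective _ hbij).subtypeEquiv
    (q := fun b : G × A => b.1 ∈ C ∧ b.2 ∈ T) (fun _ => Iff.rfl)).trans
      (Equiv.subtypeProdEquivProd (p := fun a => a ∈ C) (q := fun b => b ∈ T)))

theorem card_eq_of_bijective {𝒢 G A : Type*} [Finite G] [Finite A]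
    (f : 𝒢 → G) (κ : 𝒢 → A) (hbij : Function.Bijective fun g => (f g, κ g)) :
    Nat.card 𝒢 = Nat.card G * Nat.card A := by
  rw [← Nat.card_prod]
  exact Nat.card_congr (Equiv.ofBijective _ hbij)

end Fermat.Agent.S48.Cheb
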