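import Mathlib
import Fermat.Agent.S48.Cheb.WSum
import Fermat.Agent.S48.Cheb.Upper
import Fermat.Agent.S48.Cheb.Alg.Point
import Fermat.Agent.S48.Cheb.Alg.Ideal
import Fermat.Agent.S48.Cheb.Alg.Char
import Fermat.Agent.S48.Cheb.Alg.CharCard

/-!
# S48 / Cheb / Core : (A), first part: the characters trivial on `κ(Γ)`; upper bound for the others
-/

set_option autoImplicit false

open NumberField
open scoped Pointwise

namespace Fermat.Agent.S48.Cheb

open Fermat.Agent.GR.G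
open Classical

variable {L : Type*} [Field L] [NumberField L] [IsGalois ℚ L]
  {m : ℕ} [NeZero m] {ζ : L} (hζ : IsPrimitiveRoot ζ m)

/-- the even characters which are trivial on `κ(Γ)` -/
noncomputable def trivChars (Γ : Subgroup (L ≃ₐ[ℚ] L)) : Finset (DirichletCharacter ℂ m) :=
  (evenChars m).filter fun χ => ∀ g ∈ Γ, χ ((hζ.autToPow ℚ g : (ZMod m)ˣ) : ZMod m) = 1

/-- (A-a) -/
theorem wSum_reChi_of_mem_trivChars (R : Finset ℕ) (hR : GoodR L m R) (Γ : Subgroup (L ≃ₐ[ℚ] L))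
    (χ : DirichletCharacter ℂ m) (hχ : χ ∈ trivChars hζ Γ) (s : ℝ) :
    wSum (IntermediateField.fixedField Γ) R s (reChi χ) =
      degOneSum (IntermediateField.fixedField Γ) R s := by
  have hχ2 : ∀ g ∈ Γ, χ ((hζ.autToPow ℚ g : (ZMod m)ˣ) : ZMod m) = 1 := (Finset.mem_filter.1 hχ).2
  have h := wSum_congr (IntermediateField.fixedField Γ) (IntermediateField.fixedField Γ) R s 1 1
    (reChi χ) (fun _ => 1) (fun p hp hpR => by
      by_cases hc : cnt (IntermediateField.fixedField Γ) p = 0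
      · rw [hc]; simp
      · obtain ⟨g, hg, hgp⟩ := exists_mem_autToPow_eq_of_cnt_ne_zero hζ Γ p hp (hR p hp hpR).1
          (hR p hp hpR).2 hc
        have h1 : reChi χ p = 1 := by
          unfold reChi
          rw [← hgp, hχ2 g hg, Complex.one_re]
        rw [h1])
  rw [one_mul, one_mul, wSum_one] at h
  exact h

/-- (A-d) -/
theorem card_trivChars_mul (Γ : Subgroup (L ≃ₐ[ℚ] L))
    (hinj : Set.InjOn (hζ.autToPow ℚ) (Γ : Set (L ≃ₐ[ℚ] L)))
    (z : L ≃ₐ[ℚ] L) (hzΓ : z ∈ Γ) (hz : hζ.autToPow ℚ z = -1) :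
    (trivChars hζ Γ).card * Nat.card Γ = m.totient := by
  have hcard : Nat.card (Γ.map (hζ.autToPow ℚ)) = Nat.card Γ := Nat.card_image_of_injOn hinj
  have hset : trivChars hζ Γ = Finset.univ.filter fun χ : DirichletCharacter ℂ m =>
      ∀ h ∈ Γ.map (hζ.autToPow ℚ), χ ((h : (ZMod m)ˣ) : ZMod m) = 1 := by
    ext χ
    simp only [trivChars, Finset.mem_filter, mem_evenChars, Finset.mem_univ, true_and]
    constructor
    · rintro ⟨-, h⟩ _ ⟨g, hg, rfl⟩
      exact h g hg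
    · intro h
      have h' : ∀ g ∈ Γ, χ ((hζ.autToPow ℚ g : (ZMod m)ˣ) : ZMod m) = 1 :=
        fun g hg => h _ (Subgroup.mem_map_of_mem _ hg)
      refine ⟨?_, h'⟩
      have := h' z hzΓ
      rw [hz, Units.val_neg, Units.val_one] at this
      exact this
  rw [hset, ← hcard]
  exact card_chars_trivial_on _

/-- (A-b) -/
theorem exists_wSum_reChi_le_of_not_mem (R : Finset ℕ) (Γ : Subgroup (L ≃ₐ[ℚ] L))
    (χ : DirichletCharacter ℂ m) (hχ : χ ∈ evenChars m) (hχ' : χ ∉ trivChars hζ Γ) :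
    ∃ B : ℝ, ∀ s : ℝ, 1 < s → s ≤ 2 →
      wSum (IntermediateField.fixedField Γ) R s (reChi χ) ≤ B := by
  obtain ⟨γ₀, hγ₀, hne⟩ : ∃ γ₀ ∈ Γ, χ ((hζ.autToPow ℚ γ₀ : (ZMod m)ˣ) : ZMod m) ≠ 1 := by
    by_contra hcon
    push Not at hcon
    exact hχ' (Finset.mem_filter.2 ⟨hχ, hcon⟩)
  obtain ⟨𝔟, hcop, hξ⟩ := exists_ideal_chiN_ne_one hζ Γ χ γ₀ hγ₀ hne
  exact exists_wSum_reChi_le (IntermediateField.fixedField Γ) χ (NeZero.ne m)
    ((mem_evenChars χ).1 hχ) 𝔟 hcop hξ R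

end Fermat.Agent.S48.Cheb
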