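import Mathlib
import Fermat.Agent.S48.Cheb.Core.A1

/-!
# S48 / Cheb / Core : (A) `∑_p Re χ(p) cnt F p p^{-s} = O(1)` for `F = L^Γ`, `κ|Γ` injective, `χ` even, nontrivial on `κ(Γ)`
-/

set_option autoImplicit false

open NumberField
open scoped Pointwise

namespace Fermat.Agent.S48.Cheb

open Fermat.Agent.GR.G
open Classical

variable {L : Type*} [Field L] [NumberField L] [IsGalois ℚ L]
  {m : ℕ} [NeZero m] {ζ : L} (hζ : IsPrimitiveRoot ζ m)

/-- (A-c) -/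
theorem sum_evenChars_wSum (hm2 : 2 < m) (R : Finset ℕ) (hR : GoodR L m R)
    (Γ : Subgroup (L ≃ₐ[ℚ] L))
    (hinj : Set.InjOn (hζ.autToPow ℚ) (Γ : Set (L ≃ₐ[ℚ] L)))
    (z : L ≃ₐ[ℚ] L) (hzΓ : z ∈ Γ) (hz : hζ.autToPow ℚ z = -1) {s : ℝ} (hs : 1 < s) :
    (Nat.card Γ : ℝ) * ∑ χ ∈ evenChars m, wSum (IntermediateField.fixedField Γ) R s (reChi χ) =
      (m.totient : ℝ) * degOneSum (IntermediateField.fixedField (Subgroup.zpowers z)) R s := by
  have h1 : ∑ χ ∈ evenChars m, wSum (IntermediateField.fixedField Γ) R s (reChi χ) =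
      wSum (IntermediateField.fixedField Γ) R s (fun p => (m.totient : ℝ) / 2 * indPM m p) := by
    have h := wSum_sum (IntermediateField.fixedField Γ) (evenChars m) (fun _ => (1 : ℝ))
      (fun χ => reChi χ) 1 (fun χ _ p => abs_reChi_le_one χ p) R hs
    simp only [one_mul] at h
    rw [← h]
    congr 1
    funext p
    exact sum_evenChars_reChi (m := m) p
  rw [h1, ← wSum_one]
  refine wSum_congr _ _ R s _ _ _ _ (fun p hp hpR => ?_)
  have h2 := two_mul_cnt_zpowers hζ hm2 Γ hinj z hzΓ hz p hp (hR p hp hpR).1 (hR p hp hpR).2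
  linear_combination (-(m.totient : ℝ) / 2) * h2

/-- the sum over the nontrivial even characters is bounded -/
theorem exists_abs_sum_sdiff_le (hm2 : 2 < m) (R : Finset ℕ) (hR : GoodR L m R)
    (Γ : Subgroup (L ≃ₐ[ℚ] L))
    (hinj : Set.InjOn (hζ.autToPow ℚ) (Γ : Set (L ≃ₐ[ℚ] L)))
    (z : L ≃ₐ[ℚ] L) (hzΓ : z ∈ Γ) (hz : hζ.autToPow ℚ z = -1) :
    ∃ B : ℝ, ∀ s : ℝ, 1 < s → s ≤ 2 →
      |∑ χ ∈ evenChars m \ trivChars hζ Γ,
        wSum (IntermediateField.fixedField Γ) R s (reChi χ)| ≤ B := by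
  obtain ⟨B0, hB0⟩ :=
    exists_abs_degOneSum_sub_log_le (IntermediateField.fixedField (Subgroup.zpowers z)) R
  obtain ⟨B1, hB1⟩ := exists_abs_degOneSum_sub_log_le (IntermediateField.fixedField Γ) R
  refine ⟨((trivChars hζ Γ).card : ℝ) * (B0 + B1), fun s hs1 hs2 => ?_⟩
  have hsub : trivChars hζ Γ ⊆ evenChars m := Finset.filter_subset _ _
  have h1 := Finset.sum_sdiff (f := fun χ => wSum (IntermediateField.fixedField Γ) R s (reChi χ))
    hsub
  have h2 : ∑ χ ∈ trivChars hζ Γ, wSum (IntermediateField.fixedField Γ) R s (reChi χ) =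
      ((trivChars hζ Γ).card : ℝ) * degOneSum (IntermediateField.fixedField Γ) R s := by
    rw [Finset.sum_congr rfl (fun χ hχ => wSum_reChi_of_mem_trivChars hζ R hR Γ χ hχ s),
      Finset.sum_const, nsmul_eq_mul]
  have h3 := sum_evenChars_wSum hζ hm2 R hR Γ hinj z hzΓ hz hs1
  have h4 : ((trivChars hζ Γ).card : ℝ) * (Nat.card Γ : ℝ) = (m.totient : ℝ) := by
    exact_mod_cast card_trivChars_mul hζ Γ hinj z hzΓ hz
  have h5 : (Nat.card Γ : ℝ) ≠ 0 := by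
    exact_mod_cast (Nat.card_pos (α := Γ)).ne'
  have h6 : ∑ χ ∈ evenChars m, wSum (IntermediateField.fixedField Γ) R s (reChi χ) =
      ((trivChars hζ Γ).card : ℝ) *
        degOneSum (IntermediateField.fixedField (Subgroup.zpowers z)) R s := by
    apply mul_left_cancel₀ h5
    rw [h3, ← h4]
    ring
  have h7 : ∑ χ ∈ evenChars m \ trivChars hζ Γ,
      wSum (IntermediateField.fixedField Γ) R s (reChi χ) =
      ((trivChars hζ Γ).card : ℝ) *
        (degOneSum (IntermediateField.fixedField (Subgroup.zpowers z)) R s -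
          degOneSum (IntermediateField.fixedField Γ) R s) := by
    have : ∑ χ ∈ evenChars m \ trivChars hζ Γ,
      wSum (IntermediateField.fixedField Γ) R s (reChi χ) =
        ∑ χ ∈ evenChars m, wSum (IntermediateField.fixedField Γ) R s (reChi χ) -
        ∑ χ ∈ trivChars hζ Γ, wSum (IntermediateField.fixedField Γ) R s (reChi χ) := by
      linarith
    rw [this, h6, h2]
    ring
  rw [h7, abs_mul, abs_of_nonneg (Nat.cast_nonneg _)]
  refine mul_le_mul_of_nonneg_left ?_ (Nat.cast_nonneg _)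
  have h8 := abs_le.1 (hB0 s hs1 hs2)
  have h9 := abs_le.1 (hB1 s hs1 hs2)
  rw [abs_le]
  constructor <;> linarith [h8.1, h8.2, h9.1, h9.2]

/-- **(A)** -/
theorem exists_abs_wSum_reChi_le (hm2 : 2 < m) (R : Finset ℕ) (hR : GoodR L m R)
    (Γ : Subgroup (L ≃ₐ[ℚ] L))
    (hinj : Set.InjOn (hζ.autToPow ℚ) (Γ : Set (L ≃ₐ[ℚ] L)))
    (z : L ≃ₐ[ℚ] L) (hzΓ : z ∈ Γ) (hz : hζ.autToPow ℚ z = -1)
    (χ : DirichletCharacter ℂ m) (hχ : χ ∈ evenChars m) (hχ' : χ ∉ trivChars hζ Γ) :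
    ∃ B : ℝ, ∀ s : ℝ, 1 < s → s ≤ 2 →
      |wSum (IntermediateField.fixedField Γ) R s (reChi χ)| ≤ B := by
  obtain ⟨B, hB⟩ := exists_abs_sum_sdiff_le hζ hm2 R hR Γ hinj z hzΓ hz
  have hex : ∀ ψ : DirichletCharacter ℂ m, ∃ C : ℝ, ψ ∈ evenChars m \ trivChars hζ Γ →
      ∀ s : ℝ, 1 < s → s ≤ 2 → wSum (IntermediateField.fixedField Γ) R s (reChi ψ) ≤ C := by
    intro ψ
    by_cases hψ : ψ ∈ evenChars m \ trivChars hζ Γ
    · obtain ⟨C, hC⟩ := exists_wSum_reChi_le_of_not_mem hζ R Γ ψ (Finset.mem_sdiff.1 hψ).1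
        (Finset.mem_sdiff.1 hψ).2
      exact ⟨C, fun _ => hC⟩
    · exact ⟨0, fun h => absurd h hψ⟩
  choose Bf hBf using hex
  have hmem : χ ∈ evenChars m \ trivChars hζ Γ := Finset.mem_sdiff.2 ⟨hχ, hχ'⟩
  refine ⟨|Bf χ| + |B| + ∑ ψ ∈ (evenChars m \ trivChars hζ Γ).erase χ, |Bf ψ|,
    fun s hs1 hs2 => ?_⟩
  have hnn : 0 ≤ ∑ ψ ∈ (evenChars m \ trivChars hζ Γ).erase χ, |Bf ψ| :=
    Finset.sum_nonneg (fun _ _ => abs_nonneg _)
  have h1 := Finset.add_sum_erase (evenChars m \ trivChars hζ Γ)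
    (fun ψ => wSum (IntermediateField.fixedField Γ) R s (reChi ψ)) hmem
  have h2 : ∑ ψ ∈ (evenChars m \ trivChars hζ Γ).erase χ,
      wSum (IntermediateField.fixedField Γ) R s (reChi ψ) ≤
      ∑ ψ ∈ (evenChars m \ trivChars hζ Γ).erase χ, |Bf ψ| :=
    Finset.sum_le_sum (fun ψ hψ =>
      (hBf ψ (Finset.mem_of_mem_erase hψ) s hs1 hs2).trans (le_abs_self _))
  have h3 := abs_le.1 (hB s hs1 hs2)
  have h4 := hBf χ hmem s hs1 hs2
  have h5 := le_abs_self (Bf χ)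
  have h6 := le_abs_self B
  have h7 := abs_nonneg (Bf χ)
  have h8 := abs_nonneg B
  rw [abs_le]
  constructor <;> linarith [h3.1, h3.2]

end Fermat.Agent.S48.Cheb
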