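import Mathlib
import Fermat.Agent.S48.Cheb.Core.A

/-!
# S48 / Cheb / Core : (B) the primes of degree one of `F = L^Γ` in the classes `± τ^{± 1}`, `τ ∈ κ(Γ)`
-/

set_option autoImplicit false

open NumberField
open scoped Pointwise

namespace Fermat.Agent.S48.Cheb

open Fermat.Agent.GR.G
open Classical

variable {L : Type*} [Field L] [NumberField L] [IsGalois ℚ L]
  {m : ℕ} [NeZero m] {ζ : L} (hζ : IsPrimitiveRoot ζ m)

theorem B_wSum_const_mul (K : Type*) [Field K] [NumberField K] (R : Finset ℕ) (s c : ℝ)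
    (w : ℕ → ℝ) : wSum K R s (fun p => c * w p) = c * wSum K R s w := by
  unfold wSum
  simp_rw [mul_assoc]
  exact tsum_mul_left

/-- the identity `(φ/2) wSum(ind τ) = ∑_{χ even} 2 Re χ(τ) wSum(Re χ)`. -/
theorem B_wSum_ind (K : Type*) [Field K] [NumberField K] (R : Finset ℕ) {s : ℝ} (hs : 1 < s)
    (τ : (ZMod m)ˣ) :
    (m.totient : ℝ) / 2 * wSum K R s (ind τ) =
      ∑ χ ∈ evenChars m, (2 * (χ (τ : ZMod m)).re) * wSum K R s (reChi χ) := by
  rw [← wSum_sum K (evenChars m) (fun χ => 2 * (χ (τ : ZMod m)).re) (fun χ => reChi χ) 1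
    (fun χ _ p => abs_reChi_le_one χ p) R hs, ← B_wSum_const_mul]
  congr 1
  funext p
  exact (sum_evenChars_re_mul_reChi τ p).symm

/-- **(B)** -/
theorem exists_le_card_mul_wSum_ind (hm2 : 2 < m) (R : Finset ℕ) (hR : GoodR L m R)
    (Γ : Subgroup (L ≃ₐ[ℚ] L))
    (hinj : Set.InjOn (hζ.autToPow ℚ) (Γ : Set (L ≃ₐ[ℚ] L)))
    (z : L ≃ₐ[ℚ] L) (hzΓ : z ∈ Γ) (hz : hζ.autToPow ℚ z = -1)
    (γ : L ≃ₐ[ℚ] L) (hγ : γ ∈ Γ) :
    ∃ B : ℝ, ∀ s : ℝ, 1 < s → s ≤ 2 →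
      4 * Real.log (1 / (s - 1)) - B ≤
        (Nat.card Γ : ℝ) * wSum (IntermediateField.fixedField Γ) R s (ind (hζ.autToPow ℚ γ)) := by
  obtain ⟨BF, hBF⟩ := exists_abs_degOneSum_sub_log_le (IntermediateField.fixedField Γ) R
  have hex : ∀ χ : DirichletCharacter ℂ m, ∃ B : ℝ, χ ∈ evenChars m \ trivChars hζ Γ →
      ∀ s : ℝ, 1 < s → s ≤ 2 → |wSum (IntermediateField.fixedField Γ) R s (reChi χ)| ≤ B := by
    intro χ
    by_cases hχ : χ ∈ evenChars m \ trivChars hζ Γ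
    · rw [Finset.mem_sdiff] at hχ
      obtain ⟨B, hB⟩ := exists_abs_wSum_reChi_le hζ hm2 R hR Γ hinj z hzΓ hz χ hχ.1 hχ.2
      exact ⟨B, fun _ => hB⟩
    · exact ⟨0, fun h => absurd h hχ⟩
  choose Bf hBf using hex
  have hφ : (0 : ℝ) < (m.totient : ℝ) := by
    exact_mod_cast Nat.totient_pos.mpr (Nat.pos_of_ne_zero (NeZero.ne m))
  have hcard : ((trivChars hζ Γ).card : ℝ) * (Nat.card Γ : ℝ) = (m.totient : ℝ) := by
    exact_mod_cast card_trivChars_mul hζ Γ hinj z hzΓ hz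
  have hΓ0 : (0 : ℝ) ≤ (Nat.card Γ : ℝ) := Nat.cast_nonneg _
  refine ⟨4 * BF + 2 * (Nat.card Γ : ℝ) / (m.totient : ℝ) *
    ∑ χ ∈ evenChars m \ trivChars hζ Γ, 2 * Bf χ, fun s hs hs2 => ?_⟩
  have h1 := B_wSum_ind (IntermediateField.fixedField Γ) R hs (hζ.autToPow ℚ γ)
  have hsub : trivChars hζ Γ ⊆ evenChars m := Finset.filter_subset _ _
  rw [← Finset.sum_sdiff hsub] at h1
  -- the trivial characters
  have h2 : ∑ χ ∈ trivChars hζ Γ, (2 * (χ ((hζ.autToPow ℚ γ : (ZMod m)ˣ) : ZMod m)).re) *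
      wSum (IntermediateField.fixedField Γ) R s (reChi χ) =
      2 * ((trivChars hζ Γ).card : ℝ) * degOneSum (IntermediateField.fixedField Γ) R s := by
    rw [Finset.sum_congr rfl (g := fun _ => 2 * degOneSum (IntermediateField.fixedField Γ) R s)]
    · rw [Finset.sum_const, nsmul_eq_mul]
      ring
    · intro χ hχ
      rw [wSum_reChi_of_mem_trivChars hζ R hR Γ χ hχ s, (Finset.mem_filter.mp hχ).2 γ hγ,
        Complex.one_re, mul_one]
  -- the other characters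
  have h3 : -(∑ χ ∈ evenChars m \ trivChars hζ Γ, 2 * Bf χ) ≤
      ∑ χ ∈ evenChars m \ trivChars hζ Γ, (2 * (χ ((hζ.autToPow ℚ γ : (ZMod m)ˣ) : ZMod m)).re) *
      wSum (IntermediateField.fixedField Γ) R s (reChi χ) := by
    rw [← Finset.sum_neg_distrib]
    refine Finset.sum_le_sum fun χ hχ => ?_
    have h4 := hBf χ hχ s hs hs2
    have h5 : |(χ ((hζ.autToPow ℚ γ : (ZMod m)ˣ) : ZMod m)).re| ≤ 1 :=
      (Complex.abs_re_le_norm _).trans (DirichletCharacter.norm_le_one χ _)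
    have h6 : |(2 * (χ ((hζ.autToPow ℚ γ : (ZMod m)ˣ) : ZMod m)).re) *
        wSum (IntermediateField.fixedField Γ) R s (reChi χ)| ≤ 2 * Bf χ := by
      rw [abs_mul, abs_mul, abs_two, mul_assoc]
      refine mul_le_mul_of_nonneg_left ?_ (by norm_num)
      calc |(χ ((hζ.autToPow ℚ γ : (ZMod m)ˣ) : ZMod m)).re| *
          |wSum (IntermediateField.fixedField Γ) R s (reChi χ)|
          ≤ 1 * |wSum (IntermediateField.fixedField Γ) R s (reChi χ)| :=
            mul_le_mul_of_nonneg_right h5 (abs_nonneg _)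
        _ ≤ Bf χ := by rw [one_mul]; exact h4
    exact (abs_le.mp h6).1
  have h7 := (abs_le.mp (hBF s hs hs2)).1
  rw [h2] at h1
  -- conclusion
  set S := ∑ χ ∈ evenChars m \ trivChars hζ Γ, 2 * Bf χ with hS
  set W := wSum (IntermediateField.fixedField Γ) R s (ind (hζ.autToPow ℚ γ)) with hW
  set Dg := degOneSum (IntermediateField.fixedField Γ) R s with hDg
  set lg := Real.log (1 / (s - 1)) with hlg
  have h8 : -S + 2 * ((trivChars hζ Γ).card : ℝ) * Dg ≤ (m.totient : ℝ) / 2 * W := by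
    rw [h1]
    linarith
  have h9 : (Nat.card Γ : ℝ) * W =
      2 * (Nat.card Γ : ℝ) / (m.totient : ℝ) * ((m.totient : ℝ) / 2 * W) := by
    field_simp
  have h10 : 2 * (Nat.card Γ : ℝ) / (m.totient : ℝ) *
      (-S + 2 * ((trivChars hζ Γ).card : ℝ) * Dg) ≤
      2 * (Nat.card Γ : ℝ) / (m.totient : ℝ) * ((m.totient : ℝ) / 2 * W) :=
    mul_le_mul_of_nonneg_left h8 (by positivity)
  have h11 : 2 * (Nat.card Γ : ℝ) / (m.totient : ℝ) *
      (-S + 2 * ((trivChars hζ Γ).card : ℝ) * Dg) =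
      -(2 * (Nat.card Γ : ℝ) / (m.totient : ℝ) * S) + 4 * Dg := by
    have : 2 * (Nat.card Γ : ℝ) / (m.totient : ℝ) * (2 * ((trivChars hζ Γ).card : ℝ) * Dg) =
        4 * Dg * (((trivChars hζ Γ).card : ℝ) * (Nat.card Γ : ℝ) / (m.totient : ℝ)) := by ring
    rw [mul_add, this, hcard, div_self hφ.ne']
    ring
  rw [h9]
  linarith

end Fermat.Agent.S48.Cheb
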