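import Mathlib

/-!
# S48 / Cheb / Core : pure group theory behind the pointwise inequality
-/

set_option autoImplicit false

namespace Fermat.Agent.S48.Cheb

open Classical

theorem Four_ite_le (P Q : Prop) (d : ℝ) (hd : 0 ≤ d) (h : P → Q ∧ d = 1) :
    (if P then (1 : ℝ) else 0) ≤ if Q then d else 0 := by
  by_cases hP : P
  · obtain ⟨hQ, h1⟩ := h hP
    rw [if_pos hP, if_pos hQ, h1]
  · rw [if_neg hP]
    split_ifs
    · exact hd
    · exact le_rfl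

theorem Four_sum_le {G : Type*} (𝒞 : Finset G) (a : G) (d : ℝ) (hd : 0 ≤ d) :
    ∑ γ ∈ 𝒞, (if γ = a then d else 0) ≤ d := by
  rw [Finset.sum_ite_eq']
  split_ifs
  · exact le_rfl
  · exact hd

/-- pure group theory: for a fixed `φ`, at most four `γ ∈ 𝒞` contribute, and only if `φ ∈ 𝒟` -/
theorem sum_ind_le_four {G A : Type*} [Group G] [CommGroup A] [HasDistribNeg A] (κ : G →* A) (z : G)
    (hz : κ z = -1) (𝒞 : Finset G) (𝒟 : Set G)
    (hinj : ∀ γ ∈ 𝒞, Set.InjOn κ (Subgroup.closure {γ, z} : Set G))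
    (h𝒟 : ∀ γ ∈ 𝒞, γ ∈ 𝒟 ∧ γ * z ∈ 𝒟 ∧ γ⁻¹ ∈ 𝒟 ∧ γ⁻¹ * z ∈ 𝒟) (φ : G) :
    ∑ γ ∈ 𝒞, (if φ ∈ Subgroup.closure {γ, z} then
      ((if κ φ = κ γ then 1 else 0) + (if κ φ = -κ γ then 1 else 0) +
        (if κ φ = (κ γ)⁻¹ then 1 else 0) + (if κ φ = -(κ γ)⁻¹ then 1 else 0) : ℝ) else 0) ≤
      if φ ∈ 𝒟 then 4 else 0 := by
  set d : ℝ := if φ ∈ 𝒟 then 1 else 0 with hd_def
  have hd : 0 ≤ d := by
    rw [hd_def]
    split_ifs <;> norm_num
  have hd1 : φ ∈ 𝒟 → d = 1 := fun h => by rw [hd_def, if_pos h]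
  have hterm : ∀ γ ∈ 𝒞, (if φ ∈ Subgroup.closure {γ, z} then
      ((if κ φ = κ γ then 1 else 0) + (if κ φ = -κ γ then 1 else 0) +
        (if κ φ = (κ γ)⁻¹ then 1 else 0) + (if κ φ = -(κ γ)⁻¹ then 1 else 0) : ℝ) else 0) ≤
      (if γ = φ then d else 0) + (if γ = φ * z⁻¹ then d else 0) + (if γ = φ⁻¹ then d else 0) +
        (if γ = z * φ⁻¹ then d else 0) := by
    intro γ hγ
    have hγc : γ ∈ Subgroup.closure ({γ, z} : Set G) :=
      Subgroup.subset_closure (Set.mem_insert _ _)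
    have hzc : z ∈ Subgroup.closure ({γ, z} : Set G) :=
      Subgroup.subset_closure (Set.mem_insert_of_mem _ (Set.mem_singleton _))
    obtain ⟨hD1, hD2, hD3, hD4⟩ := h𝒟 γ hγ
    by_cases hφ : φ ∈ Subgroup.closure ({γ, z} : Set G)
    · rw [if_pos hφ]
      refine add_le_add (add_le_add (add_le_add ?_ ?_) ?_) ?_
      · refine Four_ite_le _ _ d hd fun h => ?_
        have e : φ = γ := hinj γ hγ hφ hγc h
        exact ⟨e.symm, hd1 (e ▸ hD1)⟩
      · refine Four_ite_le _ _ d hd fun h => ?_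
        have e : φ = γ * z := hinj γ hγ hφ (Subgroup.mul_mem _ hγc hzc) (by
          rw [h, map_mul, hz, mul_neg, mul_one])
        exact ⟨by rw [e, mul_inv_cancel_right], hd1 (e ▸ hD2)⟩
      · refine Four_ite_le _ _ d hd fun h => ?_
        have e : φ = γ⁻¹ := hinj γ hγ hφ (Subgroup.inv_mem _ hγc) (by rw [h, map_inv])
        exact ⟨by rw [e, inv_inv], hd1 (e ▸ hD3)⟩
      · refine Four_ite_le _ _ d hd fun h => ?_
        have e : φ = γ⁻¹ * z :=
          hinj γ hγ hφ (Subgroup.mul_mem _ (Subgroup.inv_mem _ hγc) hzc) (by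
            rw [h, map_mul, map_inv, hz, mul_neg, mul_one])
        exact ⟨by rw [e, mul_inv_rev, inv_inv, mul_inv_cancel_left], hd1 (e ▸ hD4)⟩
    · rw [if_neg hφ]
      have h0 : ∀ Q : Prop, (0 : ℝ) ≤ if Q then d else 0 := fun Q => by
        split_ifs
        · exact hd
        · exact le_rfl
      exact add_nonneg (add_nonneg (add_nonneg (h0 _) (h0 _)) (h0 _)) (h0 _)
  refine (Finset.sum_le_sum hterm).trans ?_
  rw [Finset.sum_add_distrib, Finset.sum_add_distrib, Finset.sum_add_distrib]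
  have h1 := Four_sum_le 𝒞 φ d hd
  have h2 := Four_sum_le 𝒞 (φ * z⁻¹) d hd
  have h3 := Four_sum_le 𝒞 φ⁻¹ d hd
  have h4 := Four_sum_le 𝒞 (z * φ⁻¹) d hd
  have h5 : (if φ ∈ 𝒟 then (4 : ℝ) else 0) = 4 * d := by
    rw [hd_def]
    split_ifs <;> norm_num
  rw [h5]
  linarith

end Fermat.Agent.S48.Cheb
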