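import Mathlib
import Fermat.Agent.S48.Cheb.Alg.Family
import Fermat.Agent.S48.Cheb.Core.Four

/-!
# S48 / Cheb / Core : the pointwise inequality behind the crossing argument
-/

set_option autoImplicit false

open NumberField
open scoped Pointwise

namespace Fermat.Agent.S48.Cheb

open Fermat.Agent.GR.G
open Classical

variable {L : Type*} [Field L] [NumberField L] [IsGalois ℚ L]
  {m : ℕ} [NeZero m] {ζ : L} (hζ : IsPrimitiveRoot ζ m)

/-- the pointwise inequality -/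
theorem sum_card_mul_cnt_mul_ind_le (z : L ≃ₐ[ℚ] L) (hz : hζ.autToPow ℚ z = -1)
    (𝒞 : Finset (L ≃ₐ[ℚ] L)) (𝒟 : Set (L ≃ₐ[ℚ] L))
    (hinj : ∀ γ ∈ 𝒞, Set.InjOn (hζ.autToPow ℚ) (Subgroup.closure {γ, z} : Set (L ≃ₐ[ℚ] L)))
    (h𝒟 : ∀ γ ∈ 𝒞, γ ∈ 𝒟 ∧ γ * z ∈ 𝒟 ∧ γ⁻¹ ∈ 𝒟 ∧ γ⁻¹ * z ∈ 𝒟)
    (p : ℕ) (hp : p.Prime) (hunr : ¬ (p : ℤ) ∣ NumberField.discr L) (hpm : ¬ p ∣ m) :
    ∑ γ ∈ 𝒞, (Nat.card (Subgroup.closure {γ, z}) : ℝ) *
        (ind (hζ.autToPow ℚ γ) p *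
          (cnt (IntermediateField.fixedField (Subgroup.closure {γ, z})) p : ℝ)) ≤
      4 * (Nat.card (L ≃ₐ[ℚ] L) : ℝ) *
        (if ∃ (P : Ideal (𝓞 L)) (φ : L ≃ₐ[ℚ] L),
          P.IsPrime ∧ (p : 𝓞 L) ∈ P ∧ IsFrob L P p φ ∧ φ ∈ 𝒟 then 1 else 0) := by
  obtain ⟨d, n, fr, hdn, hfrob, hκ, hcnt⟩ := exists_frobFamily hζ p hp hunr hpm
  have hind : ∀ (i : Fin n) (γ : L ≃ₐ[ℚ] L), ind (hζ.autToPow ℚ γ) p =
      ((if hζ.autToPow ℚ (fr i) = hζ.autToPow ℚ γ then 1 else 0) +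
        (if hζ.autToPow ℚ (fr i) = -hζ.autToPow ℚ γ then 1 else 0) +
        (if hζ.autToPow ℚ (fr i) = (hζ.autToPow ℚ γ)⁻¹ then 1 else 0) +
        (if hζ.autToPow ℚ (fr i) = -(hζ.autToPow ℚ γ)⁻¹ then 1 else 0) : ℝ) := by
    intro i γ
    simp only [ind, Units.ext_iff, Units.val_neg, hκ i]
  have hcard : ∀ H : Subgroup (L ≃ₐ[ℚ] L), (Nat.card {i : Fin n // fr i ∈ H} : ℝ) =
      ∑ i : Fin n, if fr i ∈ H then (1 : ℝ) else 0 := by
    intro H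
    rw [Nat.card_eq_fintype_card, Fintype.card_subtype, Finset.card_filter]
    push_cast
    rfl
  have hterm : ∀ γ : L ≃ₐ[ℚ] L, (Nat.card (Subgroup.closure {γ, z}) : ℝ) *
        (ind (hζ.autToPow ℚ γ) p *
          (cnt (IntermediateField.fixedField (Subgroup.closure {γ, z})) p : ℝ)) =
      (d : ℝ) * ∑ i : Fin n, (if fr i ∈ Subgroup.closure {γ, z} then
        ((if hζ.autToPow ℚ (fr i) = hζ.autToPow ℚ γ then 1 else 0) +
        (if hζ.autToPow ℚ (fr i) = -hζ.autToPow ℚ γ then 1 else 0) +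
        (if hζ.autToPow ℚ (fr i) = (hζ.autToPow ℚ γ)⁻¹ then 1 else 0) +
        (if hζ.autToPow ℚ (fr i) = -(hζ.autToPow ℚ γ)⁻¹ then 1 else 0) : ℝ) else 0) := by
    intro γ
    have h := hcnt (Subgroup.closure {γ, z})
    have h' : (cnt (IntermediateField.fixedField (Subgroup.closure {γ, z})) p : ℝ) *
        (Nat.card (Subgroup.closure {γ, z}) : ℝ) =
        (d : ℝ) * ∑ i : Fin n, if fr i ∈ Subgroup.closure {γ, z} then (1 : ℝ) else 0 := by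
      rw [← hcard]
      exact_mod_cast h
    calc (Nat.card (Subgroup.closure {γ, z}) : ℝ) * (ind (hζ.autToPow ℚ γ) p *
          (cnt (IntermediateField.fixedField (Subgroup.closure {γ, z})) p : ℝ))
        = ind (hζ.autToPow ℚ γ) p *
          ((cnt (IntermediateField.fixedField (Subgroup.closure {γ, z})) p : ℝ) *
            (Nat.card (Subgroup.closure {γ, z}) : ℝ)) := by ring
      _ = (d : ℝ) * ∑ i : Fin n, ind (hζ.autToPow ℚ γ) p *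
            (if fr i ∈ Subgroup.closure {γ, z} then (1 : ℝ) else 0) := by
          rw [h', Finset.mul_sum, Finset.mul_sum, Finset.mul_sum]
          exact Finset.sum_congr rfl fun i _ => by ring
      _ = _ := by
          congr 1
          refine Finset.sum_congr rfl fun i _ => ?_
          rw [hind i γ]
          split_ifs <;> simp
  rw [Finset.sum_congr rfl fun γ _ => hterm γ, ← Finset.mul_sum, Finset.sum_comm]
  have hstep : ∀ i : Fin n, ∑ γ ∈ 𝒞, (if fr i ∈ Subgroup.closure {γ, z} then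
        ((if hζ.autToPow ℚ (fr i) = hζ.autToPow ℚ γ then 1 else 0) +
        (if hζ.autToPow ℚ (fr i) = -hζ.autToPow ℚ γ then 1 else 0) +
        (if hζ.autToPow ℚ (fr i) = (hζ.autToPow ℚ γ)⁻¹ then 1 else 0) +
        (if hζ.autToPow ℚ (fr i) = -(hζ.autToPow ℚ γ)⁻¹ then 1 else 0) : ℝ) else 0) ≤
      if fr i ∈ 𝒟 then 4 else 0 :=
    fun i => by convert sum_ind_le_four (hζ.autToPow ℚ) z hz 𝒞 𝒟 hinj h𝒟 (fr i)
  have hd0 : (0 : ℝ) ≤ d := Nat.cast_nonneg d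
  have hdn' : (d : ℝ) * n ≤ (Nat.card (L ≃ₐ[ℚ] L) : ℝ) := by exact_mod_cast hdn
  refine (mul_le_mul_of_nonneg_left (Finset.sum_le_sum fun i _ => hstep i) hd0).trans ?_
  by_cases hex : ∃ (P : Ideal (𝓞 L)) (φ : L ≃ₐ[ℚ] L),
      P.IsPrime ∧ (p : 𝓞 L) ∈ P ∧ IsFrob L P p φ ∧ φ ∈ 𝒟
  · rw [if_pos hex, mul_one]
    have h4 : ∑ i : Fin n, (if fr i ∈ 𝒟 then (4 : ℝ) else 0) ≤ ∑ _i : Fin n, (4 : ℝ) :=
      Finset.sum_le_sum fun i _ => by split_ifs <;> norm_num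
    rw [Finset.sum_const, Finset.card_univ, Fintype.card_fin, nsmul_eq_mul] at h4
    calc (d : ℝ) * ∑ i : Fin n, (if fr i ∈ 𝒟 then (4 : ℝ) else 0) ≤ (d : ℝ) * ((n : ℝ) * 4) :=
          mul_le_mul_of_nonneg_left h4 hd0
      _ = 4 * ((d : ℝ) * n) := by ring
      _ ≤ 4 * (Nat.card (L ≃ₐ[ℚ] L) : ℝ) := by linarith
  · rw [if_neg hex, mul_zero]
    have h0 : ∀ i : Fin n, (if fr i ∈ 𝒟 then (4 : ℝ) else 0) = 0 := by
      intro i
      rw [if_neg]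
      intro hi
      obtain ⟨P, hP, hpP, hfr⟩ := hfrob i
      exact hex ⟨P, fr i, hP, hpP, hfr, hi⟩
    rw [Finset.sum_congr rfl fun i _ => h0 i, Finset.sum_const_zero, mul_zero]

end Fermat.Agent.S48.Cheb
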