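import Mathlib
import Fermat.Agent.S48.Cheb.Core.B
import Fermat.Agent.S48.Cheb.Core.Point

/-!
# S48 / Cheb / Core : the core density inequality
-/

set_option autoImplicit false

open NumberField
open scoped Pointwise

namespace Fermat.Agent.S48.Cheb

open Fermat.Agent.GR.G
open Classical

variable {L : Type*} [Field L] [NumberField L] [IsGalois ℚ L]
  {m : ℕ} [NeZero m] {ζ : L} (hζ : IsPrimitiveRoot ζ m)

omit [IsGalois ℚ L] in
theorem summable_frobTerm (S : Finset ℕ) (D : Set (L ≃ₐ[ℚ] L)) {s : ℝ} (hs : 1 < s) :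
    Summable (frobTerm L S D s) := by
  refine Summable.of_nonneg_of_le (fun p => ?_) (fun p => ?_)
    (Real.summable_nat_rpow.2 (by linarith : -s < -1))
  · unfold frobTerm
    split_ifs
    · positivity
    · exact le_rfl
  · unfold frobTerm
    split_ifs
    · exact le_rfl
    · positivity

omit [IsGalois ℚ L] in
theorem exists_goodR (m : ℕ) [NeZero m] (S : Finset ℕ) : ∃ R : Finset ℕ, S ⊆ R ∧ GoodR L m R := by
  refine ⟨S ∪ (NumberField.discr L).natAbs.primeFactors ∪ m.primeFactors, ?_, ?_⟩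
  · intro p hp
    simp only [Finset.mem_union]
    exact Or.inl (Or.inl hp)
  · intro p hp hpR
    simp only [Finset.mem_union, not_or] at hpR
    obtain ⟨⟨-, h1⟩, h2⟩ := hpR
    refine ⟨fun h => h1 ?_, fun h => h2 ?_⟩
    · rw [Nat.mem_primeFactors]
      exact ⟨hp, Int.natCast_dvd.1 h, Int.natAbs_ne_zero.2 (NumberField.discr_ne_zero L)⟩
    · rw [Nat.mem_primeFactors]
      exact ⟨hp, h, NeZero.ne m⟩

theorem Main_abs_ind_le {m : ℕ} (τ : (ZMod m)ˣ) (p : ℕ) : |ind τ p| ≤ 4 := by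
  rw [abs_le]
  constructor <;> (unfold ind; split_ifs <;> norm_num)

omit [IsGalois ℚ L] in
theorem Main_frobTerm_mono {S R : Finset ℕ} (h : S ⊆ R) (D : Set (L ≃ₐ[ℚ] L)) (s : ℝ) (p : ℕ) :
    frobTerm L R D s p ≤ frobTerm L S D s p := by
  unfold frobTerm
  by_cases h1 : p.Prime ∧ p ∉ R ∧ ∃ (P : Ideal (𝓞 L)) (φ : L ≃ₐ[ℚ] L),
      P.IsPrime ∧ (p : 𝓞 L) ∈ P ∧ IsFrob L P p φ ∧ φ ∈ D
  · have h2 : p.Prime ∧ p ∉ S ∧ ∃ (P : Ideal (𝓞 L)) (φ : L ≃ₐ[ℚ] L),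
        P.IsPrime ∧ (p : 𝓞 L) ∈ P ∧ IsFrob L P p φ ∧ φ ∈ D :=
      ⟨h1.1, fun hS => h1.2.1 (h hS), h1.2.2⟩
    rw [if_pos h1, if_pos h2]
  · rw [if_neg h1]
    split_ifs
    · positivity
    · exact le_rfl

/-- **Core.** -/
theorem core (hm2 : 2 < m) (z : L ≃ₐ[ℚ] L) (hz : hζ.autToPow ℚ z = -1)
    (𝒞 : Finset (L ≃ₐ[ℚ] L)) (𝒟 : Set (L ≃ₐ[ℚ] L))
    (hinj : ∀ γ ∈ 𝒞, Set.InjOn (hζ.autToPow ℚ) (Subgroup.closure {γ, z} : Set (L ≃ₐ[ℚ] L)))
    (h𝒟 : ∀ γ ∈ 𝒞, γ ∈ 𝒟 ∧ γ * z ∈ 𝒟 ∧ γ⁻¹ ∈ 𝒟 ∧ γ⁻¹ * z ∈ 𝒟) (S : Finset ℕ) :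
    ∃ B : ℝ, ∀ s : ℝ, 1 < s → s ≤ 2 →
      ((𝒞.card : ℝ) / (Nat.card (L ≃ₐ[ℚ] L) : ℝ)) * Real.log (1 / (s - 1)) - B ≤
        ∑' p : ℕ, frobTerm L S 𝒟 s p := by
  obtain ⟨R, hSR, hR⟩ := exists_goodR (L := L) m S
  have hB : ∀ γ : L ≃ₐ[ℚ] L, γ ∈ 𝒞 → ∃ B : ℝ, ∀ s : ℝ, 1 < s → s ≤ 2 →
      4 * Real.log (1 / (s - 1)) - B ≤
        (Nat.card (Subgroup.closure {γ, z}) : ℝ) *
          wSum (IntermediateField.fixedField (Subgroup.closure {γ, z})) R s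
            (ind (hζ.autToPow ℚ γ)) := fun γ hγ =>
    exists_le_card_mul_wSum_ind hζ hm2 R hR (Subgroup.closure {γ, z}) (hinj γ hγ) z
      (Subgroup.subset_closure (by simp)) hz γ (Subgroup.subset_closure (by simp))
  choose! B hB using hB
  have hG : (0 : ℝ) < (Nat.card (L ≃ₐ[ℚ] L) : ℝ) := by exact_mod_cast Nat.card_pos
  refine ⟨(∑ γ ∈ 𝒞, B γ) / (4 * (Nat.card (L ≃ₐ[ℚ] L) : ℝ)), fun s hs hs2 => ?_⟩
  have h1 : ∑ γ ∈ 𝒞, (4 * Real.log (1 / (s - 1)) - B γ) ≤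
      ∑ γ ∈ 𝒞, (Nat.card (Subgroup.closure {γ, z}) : ℝ) *
        wSum (IntermediateField.fixedField (Subgroup.closure {γ, z})) R s
          (ind (hζ.autToPow ℚ γ)) :=
    Finset.sum_le_sum (fun γ hγ => hB γ hγ s hs hs2)
  have hsumm : ∀ γ ∈ 𝒞, Summable (fun p : ℕ => (Nat.card (Subgroup.closure {γ, z}) : ℝ) *
      (ind (hζ.autToPow ℚ γ) p *
        degOneTerm (IntermediateField.fixedField (Subgroup.closure {γ, z})) R s p)) :=
    fun γ _ => (summable_wSum _ R hs _ 4 (Main_abs_ind_le _)).mul_left _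
  have h2 : ∑ γ ∈ 𝒞, (Nat.card (Subgroup.closure {γ, z}) : ℝ) *
        wSum (IntermediateField.fixedField (Subgroup.closure {γ, z})) R s
          (ind (hζ.autToPow ℚ γ)) =
      ∑' p : ℕ, ∑ γ ∈ 𝒞, (Nat.card (Subgroup.closure {γ, z}) : ℝ) *
      (ind (hζ.autToPow ℚ γ) p *
        degOneTerm (IntermediateField.fixedField (Subgroup.closure {γ, z})) R s p) := by
    rw [Summable.tsum_finsetSum hsumm]
    refine Finset.sum_congr rfl (fun γ _ => ?_)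
    rw [tsum_mul_left]
    rfl
  have h3 : ∀ p : ℕ, ∑ γ ∈ 𝒞, (Nat.card (Subgroup.closure {γ, z}) : ℝ) *
      (ind (hζ.autToPow ℚ γ) p *
        degOneTerm (IntermediateField.fixedField (Subgroup.closure {γ, z})) R s p) ≤
      4 * (Nat.card (L ≃ₐ[ℚ] L) : ℝ) * frobTerm L S 𝒟 s p := by
    intro p
    refine le_trans ?_ (mul_le_mul_of_nonneg_left (Main_frobTerm_mono hSR 𝒟 s p) (by positivity))
    by_cases hp : p.Prime ∧ p ∉ R
    · have h := sum_card_mul_cnt_mul_ind_le hζ z hz 𝒞 𝒟 hinj h𝒟 p hp.1 (hR p hp.1 hp.2).1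
        (hR p hp.1 hp.2).2
      have hpos : (0 : ℝ) ≤ (p : ℝ) ^ (-s) := by positivity
      have h' := mul_le_mul_of_nonneg_right h hpos
      have e1 : ∑ γ ∈ 𝒞, (Nat.card (Subgroup.closure {γ, z}) : ℝ) *
          (ind (hζ.autToPow ℚ γ) p *
            degOneTerm (IntermediateField.fixedField (Subgroup.closure {γ, z})) R s p) =
          (∑ γ ∈ 𝒞, (Nat.card (Subgroup.closure {γ, z}) : ℝ) *
            (ind (hζ.autToPow ℚ γ) p *
              (cnt (IntermediateField.fixedField (Subgroup.closure {γ, z})) p : ℝ))) *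
            (p : ℝ) ^ (-s) := by
        rw [Finset.sum_mul]
        refine Finset.sum_congr rfl (fun γ _ => ?_)
        unfold degOneTerm
        rw [if_pos hp]
        ring
      have e2 : frobTerm L R 𝒟 s p =
          (if ∃ (P : Ideal (𝓞 L)) (φ : L ≃ₐ[ℚ] L),
            P.IsPrime ∧ (p : 𝓞 L) ∈ P ∧ IsFrob L P p φ ∧ φ ∈ 𝒟 then 1 else 0) *
            (p : ℝ) ^ (-s) := by
        unfold frobTerm
        by_cases hex : ∃ (P : Ideal (𝓞 L)) (φ : L ≃ₐ[ℚ] L),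
            P.IsPrime ∧ (p : 𝓞 L) ∈ P ∧ IsFrob L P p φ ∧ φ ∈ 𝒟
        · rw [if_pos hex, if_pos ⟨hp.1, hp.2, hex⟩, one_mul]
        · rw [if_neg hex, if_neg (fun h => hex h.2.2), zero_mul]
      rw [e1, e2, ← mul_assoc]
      exact h'
    · have e1 : ∑ γ ∈ 𝒞, (Nat.card (Subgroup.closure {γ, z}) : ℝ) *
          (ind (hζ.autToPow ℚ γ) p *
            degOneTerm (IntermediateField.fixedField (Subgroup.closure {γ, z})) R s p) = 0 := by
        refine Finset.sum_eq_zero (fun γ _ => ?_)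
        unfold degOneTerm
        rw [if_neg hp, mul_zero, mul_zero]
      have e2 : frobTerm L R 𝒟 s p = 0 := by
        unfold frobTerm
        rw [if_neg (fun h => hp ⟨h.1, h.2.1⟩)]
      rw [e1, e2, mul_zero]
  have h4 := Summable.tsum_le_tsum h3 (summable_sum hsumm)
    ((summable_frobTerm S 𝒟 hs).mul_left (4 * (Nat.card (L ≃ₐ[ℚ] L) : ℝ)))
  rw [tsum_mul_left] at h4
  rw [Finset.sum_sub_distrib, Finset.sum_const, nsmul_eq_mul] at h1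
  have e : ((𝒞.card : ℝ) / (Nat.card (L ≃ₐ[ℚ] L) : ℝ)) * Real.log (1 / (s - 1)) -
      (∑ γ ∈ 𝒞, B γ) / (4 * (Nat.card (L ≃ₐ[ℚ] L) : ℝ)) =
      ((𝒞.card : ℝ) * (4 * Real.log (1 / (s - 1))) - ∑ γ ∈ 𝒞, B γ) /
        (4 * (Nat.card (L ≃ₐ[ℚ] L) : ℝ)) := by
    field_simp
  rw [e, div_le_iff₀ (by positivity)]
  linarith

end Fermat.Agent.S48.Cheb
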