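import Mathlib
import Fermat.Agent.S48.Cheb.Core.Main
import Fermat.Agent.S48.Cheb.Core.Group

/-!
# S48 / Cheb / Core : crossing with the cyclotomic field
-/

set_option autoImplicit false

open NumberField
open scoped Pointwise

namespace Fermat.Agent.S48.Cheb

open Fermat.Agent.GR.G
open Classical

variable {L : Type*} [Field L] [NumberField L] [IsGalois ℚ L]
  {m : ℕ} [NeZero m] {ζ : L} (hζ : IsPrimitiveRoot ζ m)

/-- **Cross.**  `Gal(L/ℚ) ≃ G × (ℤ/m)ˣ` via `(res, κ)`. -/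
theorem cross (hm2 : 2 < m) {G : Type*} [Group G] [Finite G] (res : (L ≃ₐ[ℚ] L) →* G)
    (hbij : Function.Bijective fun g : L ≃ₐ[ℚ] L => (res g, hζ.autToPow ℚ g))
    (C : Set G) (hC : ∀ g ∈ C, g⁻¹ ∈ C) (S : Finset ℕ) :
    ∃ B : ℝ, ∀ s : ℝ, 1 < s → s ≤ 2 →
      ((Nat.card C : ℝ) * (Nat.card (goodTau m (Nat.card G)) : ℝ) /
          ((Nat.card G : ℝ) * (m.totient : ℝ))) * Real.log (1 / (s - 1)) - B ≤
        ∑' p : ℕ, frobTerm L S (res ⁻¹' C) s p := by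
  have : Fintype (L ≃ₐ[ℚ] L) := Fintype.ofFinite _
  obtain ⟨z, hz⟩ := hbij.2 (1, -1)
  have hz1 : res z = 1 := congrArg Prod.fst hz
  have hzk : hζ.autToPow ℚ z = -1 := congrArg Prod.snd hz
  have hinj : ∀ γ ∈ (Finset.univ.filter fun g : L ≃ₐ[ℚ] L =>
      res g ∈ C ∧ hζ.autToPow ℚ g ∈ goodTau m (Nat.card G)),
      Set.InjOn (hζ.autToPow ℚ) (Subgroup.closure {γ, z} : Set (L ≃ₐ[ℚ] L)) := by
    intro γ hγ
    exact injOn_closure_pair res (hζ.autToPow ℚ) hbij.1 z hz1 hzk γ (Finset.mem_filter.mp hγ).2.2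
  have hD : ∀ γ ∈ (Finset.univ.filter fun g : L ≃ₐ[ℚ] L =>
      res g ∈ C ∧ hζ.autToPow ℚ g ∈ goodTau m (Nat.card G)),
      γ ∈ res ⁻¹' C ∧ γ * z ∈ res ⁻¹' C ∧ γ⁻¹ ∈ res ⁻¹' C ∧ γ⁻¹ * z ∈ res ⁻¹' C := by
    intro γ hγ
    have h1 : res γ ∈ C := (Finset.mem_filter.mp hγ).2.1
    refine ⟨h1, ?_, ?_, ?_⟩
    · show res (γ * z) ∈ C
      rw [map_mul, hz1, mul_one]
      exact h1
    · show res γ⁻¹ ∈ C
      rw [map_inv]
      exact hC _ h1
    · show res (γ⁻¹ * z) ∈ C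
      rw [map_mul, hz1, mul_one, map_inv]
      exact hC _ h1
  obtain ⟨B, hB⟩ := core hζ hm2 z hzk _ (res ⁻¹' C) hinj hD S
  refine ⟨B, fun s hs hs2 => ?_⟩
  have h := hB s hs hs2
  have hcard := card_filter_of_bijective res (hζ.autToPow ℚ) hbij C (goodTau m (Nat.card G))
  have hG : Nat.card (L ≃ₐ[ℚ] L) = Nat.card G * m.totient := by
    rw [card_eq_of_bijective res (hζ.autToPow ℚ) hbij,
      Nat.card_eq_fintype_card (α := (ZMod m)ˣ), ZMod.card_units_eq_totient]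
  rw [hcard, hG] at h
  push_cast at h
  exact h

end Fermat.Agent.S48.Cheb
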